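/-
S35, work package S (weak strong multiplicity one), part 1 (helper68):
**the eigen-character of a normalised eigenform**.

For a normalised eigenform `g` of level `N` (Prelude sense) and every set `S` of primes:
`eigenChar hg S : heckeAlgebra N 2 S →+* ℂ` with
`eigenChar hg S (T_ℓ) = a_ℓ(g)` (`ℓ ∤ N`, `ℓ ∉ S`), `eigenChar hg S (U_q) = a_q(g)`, and
`t g = eigenChar hg S t • g` for every `t` of the Hecke algebra.
-/
import Fermat.Agent.F3.EigenChar.Eigenform
import Fermat.Prelude.Def_CuspForm_HeckeAlgebra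

set_option autoImplicit false

noncomputable section

namespace Fermat.Agent.S35SMO

open CongruenceSubgroup ModularFormClass CuspForm Fermat.Agent.S49.Forms Fermat.Agent.F3EC

variable {N : ℕ} [NeZero N]

omit [NeZero N] in
/-- `a_{n q} = a_q a_n` for a prime `q ∣ N`. -/
theorem qCoeff_mul_prime_of_dvd {g : CuspForm (Gamma0 N) 2} (hg : g.IsNormalizedEigenform)
    {q : ℕ} (hq : q.Prime) (hqN : q ∣ N) (n : ℕ) :
    qCoeff ⇑g (n * q) = qCoeff ⇑g q * qCoeff ⇑g n := by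
  rcases Nat.eq_zero_or_pos n with rfl | hn
  · rw [zero_mul, qc_zero_index, mul_zero]
  obtain ⟨r, m, hm, rfl⟩ := Nat.exists_eq_pow_mul_and_not_dvd hn.ne' q hq.ne_one
  have hcop : ∀ s : ℕ, Nat.Coprime (q ^ s) m := fun s =>
    Nat.Coprime.pow_left s ((Nat.Prime.coprime_iff_not_dvd hq).mpr hm)
  have hpow : qCoeff ⇑g (q ^ (r + 1)) = qCoeff ⇑g q * qCoeff ⇑g (q ^ r) := by
    rcases r with _ | s
    · rw [zero_add, pow_one, pow_zero, hg.qCoeff_one, mul_one]
    · exact hg.qCoeff_prime_pow_of_dvd q s hq hqN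
  have h1 : q ^ r * m * q = q ^ (r + 1) * m := by ring
  rw [h1, hg.qCoeff_mul_of_coprime _ _ (hcop (r + 1)), hg.qCoeff_mul_of_coprime _ _ (hcop r),
    hpow]
  ring

/-- A normalised eigenform is an eigenvector of `U_q` (`q ∣ N`) with eigenvalue `a_q`. -/
theorem heckeULin_eq_smul {g : CuspForm (Gamma0 N) 2} (hg : g.IsNormalizedEigenform)
    {q : ℕ} (hq : q.Prime) (hqN : q ∣ N) :
    CuspForm.heckeULin 2 hqN g = qCoeff ⇑g q • g := by
  apply qLin_injective N
  funext n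
  rw [qLin_apply, qLin_apply, qc_heckeU hq hqN, qc_smul]
  exact qCoeff_mul_prime_of_dvd hg hq hqN n

/-- Every element of the Hecke algebra acts on a normalised eigenform by a scalar. -/
theorem exists_eigenvalue {g : CuspForm (Gamma0 N) 2} (hg : g.IsNormalizedEigenform)
    (S : Set ℕ) {t : Module.End ℂ (CuspForm (Gamma0 N) 2)} (ht : t ∈ heckeAlgebra N 2 S) :
    ∃ c : ℂ, t g = c • g := by
  unfold heckeAlgebra at ht
  induction ht using Algebra.adjoin_induction with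
  | mem x hx =>
    rcases hx with ⟨ℓ, hℓ, hℓN, -, rfl⟩ | ⟨q, hqN, hq, -, rfl⟩
    · exact ⟨_, heckeTLin_eq_smul hg hℓ hℓN⟩
    · exact ⟨_, heckeULin_eq_smul hg hq hqN⟩
  | algebraMap n =>
    refine ⟨(n : ℂ), ?_⟩
    rw [Algebra.algebraMap_eq_smul_one, LinearMap.smul_apply, Module.End.one_apply,
      ← Int.cast_smul_eq_zsmul ℂ n g]
  | add x y _ _ hx hy =>
    obtain ⟨a, ha⟩ := hx
    obtain ⟨b, hb⟩ := hy
    exact ⟨a + b, by rw [LinearMap.add_apply, ha, hb, add_smul]⟩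
  | mul x y _ _ hx hy =>
    obtain ⟨a, ha⟩ := hx
    obtain ⟨b, hb⟩ := hy
    exact ⟨b * a, by rw [Module.End.mul_apply, hb, map_smul, ha, smul_smul]⟩

/-- the eigenvalue, as a function. -/
def eigenVal (g : CuspForm (Gamma0 N) 2) (S : Set ℕ) (t : heckeAlgebra N 2 S) : ℂ :=
  qCoeff ⇑((t : Module.End ℂ (CuspForm (Gamma0 N) 2)) g) 1

theorem apply_eq_eigenVal_smul {g : CuspForm (Gamma0 N) 2} (hg : g.IsNormalizedEigenform)
    (S : Set ℕ) (t : heckeAlgebra N 2 S) :
    (t : Module.End ℂ (CuspForm (Gamma0 N) 2)) g = eigenVal g S t • g := by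
  obtain ⟨c, hc⟩ := exists_eigenvalue hg S t.2
  have h : eigenVal g S t = c := by
    rw [eigenVal, hc, qc_smul, hg.qCoeff_one, mul_one]
  rw [h, hc]

theorem eigenVal_eq_of_apply_eq {g : CuspForm (Gamma0 N) 2} (hg : g.IsNormalizedEigenform)
    (S : Set ℕ) (t : heckeAlgebra N 2 S) {c : ℂ}
    (hc : (t : Module.End ℂ (CuspForm (Gamma0 N) 2)) g = c • g) : eigenVal g S t = c := by
  rw [eigenVal, hc, qc_smul, hg.qCoeff_one, mul_one]

/-- **The eigen-character of a normalised eigenform.** -/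
def eigenChar {g : CuspForm (Gamma0 N) 2} (hg : g.IsNormalizedEigenform) (S : Set ℕ) :
    heckeAlgebra N 2 S →+* ℂ where
  toFun := eigenVal g S
  map_one' := eigenVal_eq_of_apply_eq hg S 1 (by
    rw [OneMemClass.coe_one, Module.End.one_apply, one_smul])
  map_mul' s t := eigenVal_eq_of_apply_eq hg S (s * t) (by
    rw [MulMemClass.coe_mul, Module.End.mul_apply, apply_eq_eigenVal_smul hg S t, map_smul,
      apply_eq_eigenVal_smul hg S s, smul_smul, mul_comm])
  map_zero' := eigenVal_eq_of_apply_eq hg S 0 (by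
    rw [ZeroMemClass.coe_zero, LinearMap.zero_apply, zero_smul])
  map_add' s t := eigenVal_eq_of_apply_eq hg S (s + t) (by
    rw [AddMemClass.coe_add, LinearMap.add_apply, apply_eq_eigenVal_smul hg S t,
      apply_eq_eigenVal_smul hg S s, add_smul])

theorem eigenChar_apply {g : CuspForm (Gamma0 N) 2} (hg : g.IsNormalizedEigenform) (S : Set ℕ)
    (t : heckeAlgebra N 2 S) : eigenChar hg S t = eigenVal g S t := rfl

theorem apply_eq_eigenChar_smul {g : CuspForm (Gamma0 N) 2} (hg : g.IsNormalizedEigenform)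
    (S : Set ℕ) (t : heckeAlgebra N 2 S) :
    (t : Module.End ℂ (CuspForm (Gamma0 N) 2)) g = eigenChar hg S t • g :=
  apply_eq_eigenVal_smul hg S t

/-- `χ_g (T_ℓ) = a_ℓ(g)`. -/
theorem eigenChar_T {g : CuspForm (Gamma0 N) 2} (hg : g.IsNormalizedEigenform) {S : Set ℕ}
    {ℓ : ℕ} (hℓ : ℓ.Prime) (hℓN : ¬ ℓ ∣ N) (hℓS : ℓ ∉ S) :
    eigenChar hg S (heckeAlgebra.T hℓ hℓN hℓS) = qCoeff ⇑g ℓ :=
  eigenVal_eq_of_apply_eq hg S _ (by
    rw [heckeAlgebra.coe_T]
    exact heckeTLin_eq_smul hg hℓ hℓN)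

/-- `χ_g (U_q) = a_q(g)`. -/
theorem eigenChar_U {g : CuspForm (Gamma0 N) 2} (hg : g.IsNormalizedEigenform) {S : Set ℕ}
    {q : ℕ} (hq : q.Prime) (hqN : q ∣ N) (hqS : q ∉ S) :
    eigenChar hg S (heckeAlgebra.U hq hqN hqS) = qCoeff ⇑g q :=
  eigenVal_eq_of_apply_eq hg S _ (by
    rw [heckeAlgebra.coe_U]
    exact heckeULin_eq_smul hg hq hqN)

end Fermat.Agent.S35SMO
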