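/-
S35, work package S (helper68; sub-architect helper36): **weak strong multiplicity one**, from
the statement of S30 (`S30Shape`, as a hypothesis; `S35/SMO.lean` plugs in `S30.result`).

`smo_weak_of`: let `f`, `g` be normalised eigenforms of weight 2 and levels `M`, `M₀ ∣ M`.  If
`a_ℓ(f) = a_ℓ(g)` for all primes `ℓ` outside a finite set `S`, then `a_ℓ(f) = a_ℓ(g)` for ALL
primes `ℓ ∤ M`.  Hence (`not_isNewform_of_agree_of`) a newform of level `M` has no companion of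
level `M₀ ∣ M`, `M₀ ≠ M`, with the same eigenvalues outside a finite set.

Proof: the `p`-adic representations of S30 attached to `f` and `g` (at two auxiliary primes
`p = 2, 3`) have the same Frobenius traces outside `S ∪ {p} ∪ {q ∣ M}`, hence the same traces
(Frobenius density, `SMO/Core.lean`); evaluate at a Frobenius element at `ℓ`.
-/
import Mathlib
import Fermat.Agent.S22
import Fermat.Agent.S35.SMO.EigenChar
import Fermat.Agent.S35.SMO.Point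
import Fermat.Agent.S35.SMO.Core
import Fermat.Prelude.Def_CuspForm_Newforms

set_option autoImplicit false
set_option linter.style.haveILetI false

noncomputable section

namespace Fermat.Agent.S35SMO

open Polynomial CuspForm IsLocalRing ModularFormClass CongruenceSubgroup

variable {M M₀ : ℕ} [NeZero M] [NeZero M₀]

/-- The frozen statement of S30, as a proposition. -/
def S30Shape : Prop :=
  ∀ (p : ℕ) [Fact p.Prime] (N : ℕ) [NeZero N] (S : Finset ℕ)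
    (_hpS : p ∈ S) (_hNS : ∀ q : ℕ, q.Prime → q ∣ N → q ∈ S)
    (𝒪' : Type) [CommRing 𝒪'] [IsDomain 𝒪'] [IsDiscreteValuationRing 𝒪']
    [IsAdicComplete (IsLocalRing.maximalIdeal 𝒪') 𝒪'] [Finite (IsLocalRing.ResidueField 𝒪')]
    [CharZero 𝒪'] (_hp𝒪' : (p : 𝒪') ∈ IsLocalRing.maximalIdeal 𝒪')
    (χ : CuspForm.heckeAlgebra N 2 (↑S : Set ℕ) →+* 𝒪'),
    ∃ (𝒪'' : Type) (_ : CommRing 𝒪'') (_ : IsDomain 𝒪'') (_ : IsDiscreteValuationRing 𝒪'')
      (_ : IsAdicComplete (IsLocalRing.maximalIdeal 𝒪'') 𝒪'')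
      (_ : Finite (IsLocalRing.ResidueField 𝒪'')) (_ : CharZero 𝒪'')
      (_ : Algebra 𝒪' 𝒪'') (_ : Module.Finite 𝒪' 𝒪'') (_ : IsLocalHom (algebraMap 𝒪' 𝒪'')),
    Function.Injective (algebraMap 𝒪' 𝒪'') ∧
    ∃ ρ : GaloisRepAdic 𝒪'',
      (∀ (ℓ : ℕ) (hℓ : ℓ.Prime) (hℓN : ¬ ℓ ∣ N) (hℓS : ℓ ∉ (↑S : Set ℕ)),
        ∀ A : ValuationSubring (AlgebraicClosure ℚ), A.LiesOverPrime ℓ →
          ∀ σ : AlgebraicClosure ℚ ≃ₐ[ℚ] AlgebraicClosure ℚ, A.IsFrobeniusAt σ ℓ →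
            LinearMap.charpoly (ρ.ρ σ) =
              X ^ 2 - C (algebraMap 𝒪' 𝒪'' (χ (CuspForm.heckeAlgebra.T hℓ hℓN hℓS))) * X
                + C ((ℓ : 𝒪''))) ∧
      (∀ q : ℕ, q.Prime → ¬ q ∣ N → q ≠ p → ρ.IsUnramifiedAt q)

/-- the order generated by the Hecke eigenvalues (away from `S`) of `f` and `g`. -/
def eigenOrder {f : CuspForm (Gamma0 M) 2} (hf : f.IsNormalizedEigenform)
    {g : CuspForm (Gamma0 M₀) 2} (hg : g.IsNormalizedEigenform) (S : Set ℕ) :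
    Subalgebra ℤ ℂ :=
  (eigenChar hf S).toIntAlgHom.range ⊔ (eigenChar hg S).toIntAlgHom.range

theorem finite_range_eigenChar {N : ℕ} [NeZero N] {g : CuspForm (Gamma0 N) 2}
    (hg : g.IsNormalizedEigenform) (S : Set ℕ) :
    Module.Finite ℤ (eigenChar hg S).toIntAlgHom.range := by
  haveI : Module.Finite ℤ (heckeAlgebra N 2 S) := Fermat.Agent.S22.result N 2 S
  exact Module.Finite.of_surjective (eigenChar hg S).toIntAlgHom.rangeRestrict.toLinearMap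
    (AlgHom.rangeRestrict_surjective _)

theorem finite_eigenOrder {f : CuspForm (Gamma0 M) 2} (hf : f.IsNormalizedEigenform)
    {g : CuspForm (Gamma0 M₀) 2} (hg : g.IsNormalizedEigenform) (S : Set ℕ) :
    Module.Finite ℤ (eigenOrder hf hg S) := by
  haveI := finite_range_eigenChar hf S
  haveI := finite_range_eigenChar hg S
  exact Subalgebra.finite_sup _ _

theorem eigenChar_mem_left {f : CuspForm (Gamma0 M) 2} (hf : f.IsNormalizedEigenform)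
    {g : CuspForm (Gamma0 M₀) 2} (hg : g.IsNormalizedEigenform) (S : Set ℕ)
    (t : heckeAlgebra M 2 S) : eigenChar hf S t ∈ eigenOrder hf hg S :=
  (le_sup_left : _ ≤ eigenOrder hf hg S) ⟨t, rfl⟩

theorem eigenChar_mem_right {f : CuspForm (Gamma0 M) 2} (hf : f.IsNormalizedEigenform)
    {g : CuspForm (Gamma0 M₀) 2} (hg : g.IsNormalizedEigenform) (S : Set ℕ)
    (t : heckeAlgebra M₀ 2 S) : eigenChar hg S t ∈ eigenOrder hf hg S :=
  (le_sup_right : _ ≤ eigenOrder hf hg S) ⟨t, rfl⟩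

/-- the eigen-character of `f` with values in the order. -/
def eigenCharLeft {f : CuspForm (Gamma0 M) 2} (hf : f.IsNormalizedEigenform)
    {g : CuspForm (Gamma0 M₀) 2} (hg : g.IsNormalizedEigenform) (S : Set ℕ) :
    heckeAlgebra M 2 S →+* eigenOrder hf hg S :=
  ((eigenChar hf S).toIntAlgHom.codRestrict (eigenOrder hf hg S)
    (eigenChar_mem_left hf hg S)).toRingHom

/-- the eigen-character of `g` with values in the order. -/
def eigenCharRight {f : CuspForm (Gamma0 M) 2} (hf : f.IsNormalizedEigenform)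
    {g : CuspForm (Gamma0 M₀) 2} (hg : g.IsNormalizedEigenform) (S : Set ℕ) :
    heckeAlgebra M₀ 2 S →+* eigenOrder hf hg S :=
  ((eigenChar hg S).toIntAlgHom.codRestrict (eigenOrder hf hg S)
    (eigenChar_mem_right hf hg S)).toRingHom

theorem coe_eigenCharLeft_T {f : CuspForm (Gamma0 M) 2} (hf : f.IsNormalizedEigenform)
    {g : CuspForm (Gamma0 M₀) 2} (hg : g.IsNormalizedEigenform) {S : Set ℕ}
    {ℓ : ℕ} (hℓ : ℓ.Prime) (hℓN : ¬ ℓ ∣ M) (hℓS : ℓ ∉ S) :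
    ((eigenCharLeft hf hg S (heckeAlgebra.T hℓ hℓN hℓS) : eigenOrder hf hg S) : ℂ) =
      qCoeff f ℓ :=
  eigenChar_T hf hℓ hℓN hℓS

theorem coe_eigenCharRight_T {f : CuspForm (Gamma0 M) 2} (hf : f.IsNormalizedEigenform)
    {g : CuspForm (Gamma0 M₀) 2} (hg : g.IsNormalizedEigenform) {S : Set ℕ}
    {ℓ : ℕ} (hℓ : ℓ.Prime) (hℓN : ¬ ℓ ∣ M₀) (hℓS : ℓ ∉ S) :
    ((eigenCharRight hf hg S (heckeAlgebra.T hℓ hℓN hℓS) : eigenOrder hf hg S) : ℂ) =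
      qCoeff g ℓ :=
  eigenChar_T hg hℓ hℓN hℓS

open Classical in
/-- the value `a_ℓ` as an element of the order (`0` if it is not in the order). -/
def ordVal (R : Subalgebra ℤ ℂ) (z : ℂ) : R :=
  if h : z ∈ R then ⟨z, h⟩ else 0

theorem ordVal_eq {R : Subalgebra ℤ ℂ} (x : R) {z : ℂ} (h : (x : ℂ) = z) : ordVal R z = x := by
  have hz : z ∈ R := h ▸ x.2
  rw [ordVal, dif_pos hz]
  exact Subtype.ext h.symm

/-- **Weak strong multiplicity one, one auxiliary prime.** -/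
theorem smo_aux_of (h30 : S30Shape) (hM : M₀ ∣ M) {f : CuspForm (Gamma0 M) 2} (hf : f.IsNormalizedEigenform)
    {g : CuspForm (Gamma0 M₀) 2} (hg : g.IsNormalizedEigenform) (S : Finset ℕ)
    (h : ∀ ℓ : ℕ, ℓ.Prime → ℓ ∉ S → qCoeff f ℓ = qCoeff g ℓ) (p : ℕ) (hp : p.Prime) :
    ∀ ℓ : ℕ, ℓ.Prime → ¬ ℓ ∣ M → ℓ ≠ p → qCoeff f ℓ = qCoeff g ℓ := by
  classical
  haveI : Fact p.Prime := ⟨hp⟩
  set S' : Finset ℕ := insert p M.primeFactors with hS'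
  have hpS' : p ∈ S' := Finset.mem_insert_self _ _
  have hMS' : ∀ q : ℕ, q.Prime → q ∣ M → q ∈ S' := fun q hq hqM =>
    Finset.mem_insert_of_mem (Nat.mem_primeFactors.mpr ⟨hq, hqM, NeZero.ne M⟩)
  have hM₀S' : ∀ q : ℕ, q.Prime → q ∣ M₀ → q ∈ S' := fun q hq hqM =>
    hMS' q hq (hqM.trans hM)
  have hnotS' : ∀ ℓ : ℕ, ℓ.Prime → ℓ ∉ S' → ¬ ℓ ∣ M := fun ℓ hℓ hℓS hd => hℓS (hMS' ℓ hℓ hd)
  haveI : Module.Finite ℤ (eigenOrder hf hg (↑S' : Set ℕ)) := finite_eigenOrder hf hg _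
  obtain ⟨O', j1, j2, j3, j4, j5, j6, hpO', ι, hι⟩ :=
    exists_dvr_point (eigenOrder hf hg (↑S' : Set ℕ)) p hp
  -- the representation of `f`
  obtain ⟨O₁, i1, i2, i3, i4, i5, i6, i7, i8, i9, hinj₁, ρ₁, hρ₁, -⟩ :=
    h30 p M S' hpS' hMS' O' hpO' (ι.comp (eigenCharLeft hf hg ↑S'))
  have hpO₁ : (p : O₁) ∈ maximalIdeal O₁ := by
    have e : (p : O₁) = algebraMap O' O₁ (p : O') := by rw [map_natCast]
    rw [e, mem_maximalIdeal, map_mem_nonunits_iff]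
    exact hpO'
  -- the representation of `g`
  obtain ⟨O₂, k1, k2, k3, k4, k5, k6, k7, k8, k9, hinj₂, ρ₂, hρ₂, -⟩ :=
    h30 p M₀ S' hpS' hM₀S' O₁ hpO₁
      ((algebraMap O' O₁).comp (ι.comp (eigenCharRight hf hg ↑S')))
  -- the two families of traces
  have h₁ : ∀ ℓ : ℕ, ℓ.Prime → ℓ ∉ S' →
      ∀ A : ValuationSubring (AlgebraicClosure ℚ), A.LiesOverPrime ℓ →
        ∀ σ : AlgebraicClosure ℚ ≃ₐ[ℚ] AlgebraicClosure ℚ, A.IsFrobeniusAt σ ℓ →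
          LinearMap.charpoly (ρ₁.ρ σ) =
            X ^ 2 - C ((fun ℓ : ℕ => algebraMap O' O₁
              (ι (ordVal (eigenOrder hf hg (↑S' : Set ℕ)) (qCoeff f ℓ)))) ℓ) * X
              + C ((ℓ : O₁)) := by
    intro ℓ hℓ hℓS A hA σ hσ
    have hℓS2 : ℓ ∉ (↑S' : Set ℕ) := by simpa using hℓS
    beta_reduce
    rw [ordVal_eq _ (coe_eigenCharLeft_T hf hg hℓ (hnotS' ℓ hℓ hℓS) hℓS2)]
    exact hρ₁ ℓ hℓ (hnotS' ℓ hℓ hℓS) hℓS2 A hA σ hσ
  have h₂ : ∀ ℓ : ℕ, ℓ.Prime → ℓ ∉ S' →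
      ∀ A : ValuationSubring (AlgebraicClosure ℚ), A.LiesOverPrime ℓ →
        ∀ σ : AlgebraicClosure ℚ ≃ₐ[ℚ] AlgebraicClosure ℚ, A.IsFrobeniusAt σ ℓ →
          LinearMap.charpoly (ρ₂.ρ σ) =
            X ^ 2 - C ((fun ℓ : ℕ => algebraMap O₁ O₂ (algebraMap O' O₁
              (ι (ordVal (eigenOrder hf hg (↑S' : Set ℕ)) (qCoeff g ℓ))))) ℓ) * X
              + C ((ℓ : O₂)) := by
    intro ℓ hℓ hℓS A hA σ hσ
    have hℓS2 : ℓ ∉ (↑S' : Set ℕ) := by simpa using hℓS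
    have hℓM₀ : ¬ ℓ ∣ M₀ := fun hd => hnotS' ℓ hℓ hℓS (hd.trans hM)
    beta_reduce
    rw [ordVal_eq _ (coe_eigenCharRight_T hf hg hℓ hℓM₀ hℓS2)]
    exact hρ₂ ℓ hℓ hℓM₀ hℓS2 A hA σ hσ
  have hagree : ∀ ℓ : ℕ, ℓ.Prime → ℓ ∉ S →
      algebraMap O₁ O₂ ((fun ℓ : ℕ => algebraMap O' O₁
          (ι (ordVal (eigenOrder hf hg (↑S' : Set ℕ)) (qCoeff f ℓ)))) ℓ) =
        (fun ℓ : ℕ => algebraMap O₁ O₂ (algebraMap O' O₁
          (ι (ordVal (eigenOrder hf hg (↑S' : Set ℕ)) (qCoeff g ℓ))))) ℓ := by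
    intro ℓ hℓ hℓS
    beta_reduce
    rw [h ℓ hℓ hℓS]
  have key := eq_of_charpoly_tower (algebraMap O₁ O₂) k9 ρ₁ ρ₂ _ _ S' S h₁ h₂ hagree
  intro ℓ hℓ hℓM hℓp
  have hℓS : ℓ ∉ S' := by
    rw [hS', Finset.mem_insert, not_or]
    exact ⟨hℓp, fun hmem => hℓM (Nat.mem_primeFactors.mp hmem).2.1⟩
  have hℓS2 : ℓ ∉ (↑S' : Set ℕ) := by simpa using hℓS
  have hℓM₀ : ¬ ℓ ∣ M₀ := fun hd => hℓM (hd.trans hM)
  have e := key ℓ hℓ hℓS
  beta_reduce at e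
  have e2 := hι (hinj₁ (hinj₂ e))
  rw [ordVal_eq _ (coe_eigenCharLeft_T hf hg hℓ hℓM hℓS2),
    ordVal_eq _ (coe_eigenCharRight_T hf hg hℓ hℓM₀ hℓS2)] at e2
  rw [← coe_eigenCharLeft_T hf hg hℓ hℓM hℓS2, ← coe_eigenCharRight_T hf hg hℓ hℓM₀ hℓS2, e2]

/-- **Weak strong multiplicity one.**  Normalised eigenforms `f`, `g` of levels `M`, `M₀ ∣ M`
with the same eigenvalues outside a finite set of primes have the same eigenvalues at all
primes not dividing `M`. -/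
theorem smo_weak_of (h30 : S30Shape) (hM : M₀ ∣ M) {f : CuspForm (Gamma0 M) 2} (hf : f.IsNormalizedEigenform)
    {g : CuspForm (Gamma0 M₀) 2} (hg : g.IsNormalizedEigenform) (S : Finset ℕ)
    (h : ∀ ℓ : ℕ, ℓ.Prime → ℓ ∉ S → qCoeff f ℓ = qCoeff g ℓ) :
    ∀ ℓ : ℕ, ℓ.Prime → ¬ ℓ ∣ M → qCoeff f ℓ = qCoeff g ℓ := by
  intro ℓ hℓ hℓM
  by_cases h2 : ℓ = 2
  · exact smo_aux_of h30 hM hf hg S h 3 Nat.prime_three ℓ hℓ hℓM (by omega)
  · exact smo_aux_of h30 hM hf hg S h 2 Nat.prime_two ℓ hℓ hℓM h2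

/-- The eigen-system of `f` occurs at level `M₀` as soon as it occurs there outside a finite set
of primes. -/
theorem goodEigensystemOccursAt_of_agree_of (h30 : S30Shape) (hM : M₀ ∣ M) {f : CuspForm (Gamma0 M) 2}
    (hf : f.IsNormalizedEigenform) {g : CuspForm (Gamma0 M₀) 2} (hg : g.IsNormalizedEigenform)
    (S : Finset ℕ) (h : ∀ ℓ : ℕ, ℓ.Prime → ℓ ∉ S → qCoeff f ℓ = qCoeff g ℓ) :
    GoodEigensystemOccursAt f M₀ :=
  ⟨g, hg, fun ℓ hℓ hℓM => (smo_weak_of h30 hM hf hg S h ℓ hℓ hℓM).symm⟩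

/-- A newform of level `M` has no companion of smaller level `M₀ ∣ M` with the same eigenvalues
outside a finite set of primes. -/
theorem not_isNewform_of_agree_of (h30 : S30Shape) (hM : M₀ ∣ M) (hne : M₀ ≠ M) {f : CuspForm (Gamma0 M) 2}
    (hf : f.IsNormalizedEigenform) {g : CuspForm (Gamma0 M₀) 2} (hg : g.IsNormalizedEigenform)
    (S : Finset ℕ) (h : ∀ ℓ : ℕ, ℓ.Prime → ℓ ∉ S → qCoeff f ℓ = qCoeff g ℓ) :
    ¬ f.IsNewform :=
  fun hnew => hnew.2 M₀ hM hne (goodEigensystemOccursAt_of_agree_of h30 hM hf hg S h)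

end Fermat.Agent.S35SMO
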