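/-
S35, work package S (weak strong multiplicity one), part 2 (helper68):
**an injective point of an order in a complete discrete valuation ring over `p`**.

`exists_dvr_point`: a domain `R` of characteristic zero which is a finitely generated `ℤ`-module
embeds into a complete discrete valuation ring `O` of characteristic zero with finite residue field
in which `p` is not a unit.  (Completion of the ring of integers of `Frac R` at a prime over `p`,
`Lib/DVRPoints`, helper62.)
-/
import Mathlib
import Fermat.Agent.Lib.DVRPoints.Reduced

set_option autoImplicit false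

noncomputable section

namespace Fermat.Agent.S35SMO

open IsDedekindDomain HeightOneSpectrum IsLocalRing NumberField Fermat.Agent.DVRPoints

/-- a prime of the ring of integers over `p`. -/
theorem exists_heightOneSpectrum_over (K : Type*) [Field K] [NumberField K] (p : ℕ)
    (hp : p.Prime) : ∃ v : HeightOneSpectrum (𝓞 K), (p : 𝓞 K) ∈ v.asIdeal := by
  have hpZ : Prime (p : ℤ) := Nat.prime_iff_prime_int.mp hp
  have hmax : (Ideal.span {(p : ℤ)}).IsMaximal :=
    PrincipalIdealRing.isMaximal_of_irreducible hpZ.irreducible
  have hker : RingHom.ker (algebraMap ℤ (𝓞 K)) ≤ Ideal.span {(p : ℤ)} := by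
    intro x hx
    rw [RingHom.mem_ker] at hx
    have hinj : Function.Injective (algebraMap ℤ (𝓞 K)) :=
      FaithfulSMul.algebraMap_injective ℤ (𝓞 K)
    have : x = 0 := hinj (hx.trans (map_zero _).symm)
    rw [this]
    exact Ideal.zero_mem _
  obtain ⟨Q, hQmax, hQ⟩ := Ideal.exists_ideal_over_maximal_of_isIntegral
    (S := 𝓞 K) (Ideal.span {(p : ℤ)}) hker
  have hpQ : (p : 𝓞 K) ∈ Q := by
    have h1 : (p : ℤ) ∈ Q.comap (algebraMap ℤ (𝓞 K)) := by
      rw [hQ]
      exact Ideal.subset_span rfl
    rw [Ideal.mem_comap] at h1
    simpa using h1
  have hne : Q ≠ ⊥ := by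
    intro h
    rw [h, Ideal.mem_bot] at hpQ
    have : (p : 𝓞 K) ≠ 0 := by exact_mod_cast hp.ne_zero
    exact this hpQ
  exact ⟨⟨Q, hQmax.isPrime, hne⟩, hpQ⟩

/-- the canonical map to the ring of integers of the completion is injective. -/
theorem algebraMap_adicCompletionIntegers_injective {R : Type*} [CommRing R] [IsDedekindDomain R]
    (K : Type*) [Field K] [Algebra R K] [IsFractionRing R K] (v : HeightOneSpectrum R) :
    Function.Injective (algebraMap R (v.adicCompletionIntegers K)) := by
  intro a b hab
  have h1 := congrArg (fun x : v.adicCompletionIntegers K => (x : v.adicCompletion K)) hab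
  simp only [coe_algebraMap_eq] at h1
  exact IsFractionRing.injective R K ((algebraMap K (v.adicCompletion K)).injective h1)

/-- **An injective point in a complete discrete valuation ring over `p`.** -/
theorem exists_dvr_point (R : Type) [CommRing R] [IsDomain R] [Module.Finite ℤ R] [CharZero R]
    (p : ℕ) (hp : p.Prime) :
    ∃ (O : Type) (_ : CommRing O) (_ : IsDomain O) (_ : IsDiscreteValuationRing O)
      (_ : IsAdicComplete (maximalIdeal O) O) (_ : Finite (ResidueField O)) (_ : CharZero O),
      (p : O) ∈ maximalIdeal O ∧ ∃ ι : R →+* O, Function.Injective ι := by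
  have : NumberField (FractionRing R) := numberField_of_isFractionRing R (FractionRing R)
  obtain ⟨v, hv⟩ := exists_heightOneSpectrum_over (FractionRing R) p hp
  set P : DVRPt p (𝓞 (FractionRing R)) := DVRPt.ofPlace p (FractionRing R) v hv with hP
  refine ⟨P.O, inferInstance, inferInstance, inferInstance, inferInstance, inferInstance,
    inferInstance, P.hp, P.χ.comp (toInt R (FractionRing R)), ?_⟩
  rw [RingHom.coe_comp]
  exact (algebraMap_adicCompletionIntegers_injective (FractionRing R) v).comp
    (toInt_injective R (FractionRing R))

end Fermat.Agent.S35SMO
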